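import Fermat.Agent.S17.Defs
import Fermat.Agent.S27.WRR2

/-!
# S17, block F9: reduced effective representatives of divisor classes.   Owner: helper279.
-/

set_option autoImplicit false
set_option linter.unusedSectionVars false

noncomputable section

namespace Fermat.Agent.S17.F

open AlgebraicCurve Fermat.Agent.S24.FF Fermat.Agent.S27 Module

variable {K F : Type*} [Field K] [Field F] [Algebra K F] [IsAlgClosed K] [CharZero K] [IsFF1 K F]
  [NonConst K F]

omit [NonConst K F] in
theorem degree_sub_degree_smul (P₀ : Place K F) (E : Divisor K F) :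
    Divisor.degree (E - (Divisor.degree E) • pt P₀) = 0 := by
  rw [map_sub, map_zsmul, degree_pt, smul_eq_mul, mul_one, sub_self]

omit [NonConst K F] in
/-- linearly equivalent divisors have the same reduced class -/
theorem cls_red_eq_of_linEq (P₀ : Place K F) {E E' : Divisor K F} (h : LinEq E E') :
    cls (E - (Divisor.degree E) • pt P₀) = cls (E' - (Divisor.degree E') • pt P₀) := by
  rw [cls_eq_cls_iff (degree_sub_degree_smul P₀ E) (degree_sub_degree_smul P₀ E'), LinEq,
    h.degree_eq, sub_sub_sub_cancel_right]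
  exact h

omit [NonConst K F] in
theorem cls_red_sub_pt (P₀ : Place K F) (E : Divisor K F) :
    cls (E - pt P₀ - (Divisor.degree (E - pt P₀)) • pt P₀) =
      cls (E - (Divisor.degree E) • pt P₀) := by
  congr 1
  rw [map_sub, degree_pt, sub_smul, one_smul]
  abel

omit [NonConst K F] in
/-- a nonzero section gives an effective divisor in the class -/
theorem exists_effective_linEq (D : Divisor K F) (h : 0 < finrank K (riemannRochSpace D)) :
    ∃ E : Divisor K F, 0 ≤ E ∧ LinEq E D := by
  have hnt : Nontrivial (riemannRochSpace D) := Module.nontrivial_of_finrank_pos h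
  obtain ⟨⟨f, hf⟩, hfne⟩ := exists_ne (0 : riemannRochSpace D)
  have hf0 : f ≠ 0 := fun h0 => hfne (Subtype.ext h0)
  rw [mem_riemannRochSpace_iff] at hf
  refine ⟨D + Riemann.divOf f, fun w => ?_, ?_⟩
  · have := (hf w).resolve_left hf0
    rw [Finsupp.add_apply, Riemann.divOf_apply]
    simp only [Finsupp.coe_zero, Pi.zero_apply]
    omega
  · rw [LinEq, add_sub_cancel_left]
    exact Divisor.mem_principal.mpr ⟨f, hf0, fun v => rfl⟩

/-- effective representatives of every degree `≥ g` -/
theorem exists_effective_of_degree (P₀ : Place K F) (x : Pic0 K F) (r : ℕ)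
    (hr : genusFF K F ≤ r) :
    ∃ E : Divisor K F, 0 ≤ E ∧ Divisor.degree E = r ∧ cls (E - r • pt P₀) = x := by
  obtain ⟨D, hD0, rfl⟩ := cls_surjective x
  set D₁ : Divisor K F := D + r • pt P₀ with hD₁
  have hdeg₁ : Divisor.degree D₁ = r := by
    rw [hD₁, map_add, hD0, map_nsmul, degree_pt]
    simp
  have hRR := finrank_riemannRochSpace_sub_finrank_H1 (K := K) (F := F) D₁
  rw [hdeg₁] at hRR
  have hl : 0 < finrank K (riemannRochSpace D₁) := by
    have : (0 : ℤ) < finrank K (riemannRochSpace D₁) := by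
      have h0 : (0 : ℤ) ≤ finrank K (H1 D₁) := Int.natCast_nonneg _
      have h1 : (genusFF K F : ℤ) ≤ r := by exact_mod_cast hr
      linarith
    exact_mod_cast this
  obtain ⟨E, hE, hlin⟩ := exists_effective_linEq D₁ hl
  have hdegE : Divisor.degree E = r := by rw [hlin.degree_eq, hdeg₁]
  refine ⟨E, hE, hdegE, ?_⟩
  have hdeg2 : Divisor.degree (E - r • pt P₀) = 0 := by
    rw [map_sub, hdegE, map_nsmul, degree_pt]
    simp
  rw [cls_eq_cls_iff hdeg2 hD0, LinEq]
  have : E - r • pt P₀ - D = E - D₁ := by rw [hD₁]; abel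
  rw [this]
  exact hlin

theorem exists_effective_red (P₀ : Place K F) (x : Pic0 K F) :
    ∃ E : Divisor K F, 0 ≤ E ∧ Divisor.degree E = genusFF K F ∧
      cls (E - (Divisor.degree E) • pt P₀) = x := by
  obtain ⟨E, hE, hdeg, hcls⟩ := exists_effective_of_degree P₀ x (genusFF K F) le_rfl
  refine ⟨E, hE, hdeg, ?_⟩
  rw [hdeg, natCast_zsmul]
  exact hcls

theorem exists_isRed (P₀ : Place K F) (x : Pic0 K F) : ∃ E : Divisor K F, IsRed P₀ x E := by
  classical
  have hex : ∃ n : ℕ, ∃ E : Divisor K F, 0 ≤ E ∧ Divisor.degree E = n ∧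
      cls (E - (Divisor.degree E) • pt P₀) = x := by
    obtain ⟨E, hE, hdeg, hcls⟩ := exists_effective_red P₀ x
    exact ⟨_, E, hE, hdeg, hcls⟩
  obtain ⟨E, hE, hdeg, hcls⟩ := Nat.find_spec hex
  refine ⟨E, hE, hcls, fun E' hE' hcls' => ?_⟩
  have h0 : 0 ≤ Divisor.degree E' := Riemann.degree_nonneg hE'
  have h1 : Nat.find hex ≤ (Divisor.degree E').toNat :=
    Nat.find_min' hex ⟨E', hE', (Int.toNat_of_nonneg h0).symm, hcls'⟩
  rw [hdeg]
  omega

theorem IsRed.finrank_L {P₀ : Place K F} {x : Pic0 K F} {E : Divisor K F} (h : IsRed P₀ x E) :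
    finrank K (riemannRochSpace E) = 1 := by
  obtain ⟨hE, hcls, hmin⟩ := h
  have h1 : 1 ≤ finrank K (riemannRochSpace E) := by
    rw [← Riemann.finrank_L_zero (K := K) (F := F)]
    exact Riemann.finrank_L_mono NonConst.out hE
  by_contra hne
  have h2 : 2 ≤ finrank K (riemannRochSpace E) := by omega
  have h3 := Riemann.finrank_L_step_le (K := K) (F := F) NonConst.out (E - pt P₀) P₀
  have h4 : E - pt P₀ + Finsupp.single P₀ 1 = E := sub_add_cancel E (pt P₀)
  rw [h4] at h3
  obtain ⟨E'', hE'', hlin⟩ := exists_effective_linEq (E - pt P₀) (by omega)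
  have h5 := hmin E'' hE'' (by rw [cls_red_eq_of_linEq P₀ hlin, cls_red_sub_pt, hcls])
  rw [hlin.degree_eq, map_sub, degree_pt] at h5
  omega

theorem IsRed.unique {P₀ : Place K F} {x : Pic0 K F} {E E' : Divisor K F} (h : IsRed P₀ x E)
    (h' : IsRed P₀ x E') : E = E' := by
  have hl := IsRed.finrank_L h
  obtain ⟨hE, hcls, hmin⟩ := h
  obtain ⟨hE', hcls', hmin'⟩ := h'
  have hdeg : Divisor.degree E' = Divisor.degree E :=
    le_antisymm (hmin' E hE hcls) (hmin E' hE' hcls')
  have hlin : LinEq E' E := by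
    have h1 := hcls'.trans hcls.symm
    rw [cls_eq_cls_iff (degree_sub_degree_smul P₀ E') (degree_sub_degree_smul P₀ E), LinEq, hdeg,
      sub_sub_sub_cancel_right] at h1
    exact h1
  obtain ⟨f, hf0, hf⟩ := Divisor.mem_principal.mp hlin
  -- `f ∈ L(E) = L(0)`
  have hfE : f ∈ riemannRochSpace E := by
    rw [mem_riemannRochSpace_iff]
    intro v
    right
    have h1 := hf v
    have h2 : 0 ≤ E' v := hE' v
    rw [Finsupp.sub_apply] at h1
    omega
  have : Module.Finite K (riemannRochSpace E) := finite_riemannRochSpace E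
  have hL : riemannRochSpace (0 : Divisor K F) = riemannRochSpace E :=
    Submodule.eq_of_le_of_finrank_eq (Riemann.L_mono hE)
      (by rw [Riemann.finrank_L_zero, hl])
  rw [← hL, mem_riemannRochSpace_iff] at hfE
  have hnn : 0 ≤ E' - E := by
    intro v
    have h1 := (hfE v).resolve_left hf0
    rw [hf v]
    simpa using h1
  have hz := Riemann.eq_zero_of_degree_eq_zero hnn (by rw [map_sub, hdeg, sub_self])
  exact (sub_eq_zero.mp hz).symm

theorem IsRed.degree_le {P₀ : Place K F} {x : Pic0 K F} {E : Divisor K F} (h : IsRed P₀ x E) :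
    Divisor.degree E ≤ genusFF K F := by
  obtain ⟨E', hE', hdeg, hcls⟩ := exists_effective_red P₀ x
  rw [← hdeg]
  exact h.2.2 E' hE' hcls

theorem IsRed.apply_base {P₀ : Place K F} {x : Pic0 K F} {E : Divisor K F} (h : IsRed P₀ x E) :
    E P₀ = 0 := by
  obtain ⟨hE, hcls, hmin⟩ := h
  by_contra hne
  have h0 : 0 ≤ E P₀ := hE P₀
  have hE1 : 0 ≤ E - pt P₀ := by
    intro v
    rw [Finsupp.sub_apply]
    by_cases hv : P₀ = v
    · subst hv
      rw [pt_apply_self]
      simp only [Finsupp.coe_zero, Pi.zero_apply]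
      omega
    · rw [pt_apply_of_ne hv, sub_zero]
      exact hE v
  have h1 := hmin (E - pt P₀) hE1 (by rw [cls_red_sub_pt, hcls])
  rw [map_sub, degree_pt] at h1
  omega

end Fermat.Agent.S17.F
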