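import Fermat.Agent.S17.Defs
import Fermat.Agent.S27.WRR2
import Fermat.Agent.S27.FibBasic

/-!
# S17, block F2: avoiding finitely many hyperplanes in a linear system

* `exists_mem_forall_ord_eq_of_le`: if `W ≤ L(D)` has no base point in the finite set `S`, a single
  `f ∈ W` has exact order `-D P` at all `P ∈ S` (a vector space over an infinite field is not a finite
  union of proper subspaces).
* `exists_mem_L_forall_ord_eq`: the case `W = L(D)`, `deg D ≥ c₀ + 1`.
* `exists_pencil`: a base point free pencil inside a base point free `W`.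
-/

set_option autoImplicit false

noncomputable section

namespace Fermat.Agent.S17.F

open AlgebraicCurve Fermat.Agent.S24.FF Fermat.Agent.S27 Module

variable {K F : Type*} [Field K] [Field F] [Algebra K F] [IsAlgClosed K] [CharZero K] [IsFF1 K F]
  [NonConst K F]

omit [IsAlgClosed K] [CharZero K] [IsFF1 K F] [NonConst K F] in
private theorem avoid_mem_L_sub_pt_iff (D : Divisor K F) (P : Place K F) (f : F) :
    f ∈ riemannRochSpace (D - pt P) ↔ f ∈ riemannRochSpace D ∧ (f = 0 ∨ - D P < P.ord f) := by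
  rw [mem_riemannRochSpace_iff, mem_riemannRochSpace_iff]
  constructor
  · intro h
    refine ⟨fun v => ?_, ?_⟩
    · rcases h v with h0 | hv
      · exact Or.inl h0
      · right
        rw [Finsupp.sub_apply] at hv
        by_cases hvP : P = v
        · subst hvP
          rw [pt_apply_self] at hv
          omega
        · rw [pt_apply_of_ne hvP] at hv
          omega
    · rcases h P with h0 | hv
      · exact Or.inl h0
      · right
        rw [Finsupp.sub_apply, pt_apply_self] at hv
        omega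
  · rintro ⟨h, hP⟩ v
    rcases hP with h0 | hP
    · exact Or.inl h0
    rcases h v with h0 | hv
    · exact Or.inl h0
    right
    rw [Finsupp.sub_apply]
    by_cases hvP : P = v
    · subst hvP
      rw [pt_apply_self]
      omega
    · rw [pt_apply_of_ne hvP]
      omega

set_option linter.unusedSectionVars false in
theorem exists_mem_forall_ord_eq_of_le (W : Submodule K F) (D : Divisor K F)
    (hW : W ≤ riemannRochSpace D) (hW0 : W ≠ ⊥) (S : Finset (Place K F))
    (hS : ∀ P ∈ S, ∃ f ∈ W, f ≠ 0 ∧ P.ord f = - D P) :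
    ∃ f ∈ W, f ≠ 0 ∧ ∀ P ∈ S, P.ord f = - D P := by
  classical
  have : Infinite K := IsAlgClosed.instInfinite
  set s : Finset (Submodule K W) :=
    insert ⊥ (S.image fun P => (riemannRochSpace (D - pt P)).comap W.subtype) with hs
  have htop : (⊤ : Submodule K W) ∉ s := by
    rw [hs, Finset.mem_insert, Finset.mem_image]
    rintro (h | ⟨P, hP, h⟩)
    · apply hW0
      rw [Submodule.eq_bot_iff]
      intro x hx
      have : (⟨x, hx⟩ : W) ∈ (⊥ : Submodule K W) := by
        rw [← h]; exact Submodule.mem_top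
      rw [Submodule.mem_bot] at this
      exact congrArg Subtype.val this
    · obtain ⟨f, hfW, hf0, hf⟩ := hS P hP
      have : (⟨f, hfW⟩ : W) ∈ (riemannRochSpace (D - pt P)).comap W.subtype := by
        rw [h]; exact Submodule.mem_top
      rw [Submodule.mem_comap, avoid_mem_L_sub_pt_iff] at this
      rcases this.2 with h0 | hlt
      · exact hf0 h0
      · have : - D P < P.ord f := hlt
        omega
  have hne := Subspace.biUnion_ne_univ_of_top_notMem htop
  rw [Set.ne_univ_iff_exists_notMem] at hne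
  obtain ⟨f, hf⟩ := hne
  simp only [Set.mem_iUnion, not_exists] at hf
  have hf0 : (f : F) ≠ 0 := by
    intro h0
    apply hf ⊥ (by rw [hs]; exact Finset.mem_insert_self _ _)
    show f ∈ (⊥ : Submodule K W)
    rw [Submodule.mem_bot]
    exact Subtype.ext h0
  refine ⟨f, f.2, hf0, fun P hP => ?_⟩
  have h1 := hf ((riemannRochSpace (D - pt P)).comap W.subtype)
    (by rw [hs]; exact Finset.mem_insert_of_mem (Finset.mem_image_of_mem _ hP))
  have h2 : ¬ ((f : F) ∈ riemannRochSpace (D - pt P)) := fun h => h1 h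
  rw [avoid_mem_L_sub_pt_iff] at h2
  have hfD : (f : F) ∈ riemannRochSpace D := hW f.2
  have h3 : ¬ (- D P < P.ord (f : F)) := fun h => h2 ⟨hfD, Or.inr h⟩
  rcases (mem_riemannRochSpace_iff.mp hfD) P with h0 | h4
  · exact absurd h0 hf0
  · omega

private theorem avoid_exists_mem_L_ord_eq (D : Divisor K F) (P : Place K F)
    (h : (h1Bound K F : ℤ) + 1 ≤ Divisor.degree D) :
    ∃ f ∈ riemannRochSpace D, f ≠ 0 ∧ P.ord f = - D P := by
  have := finite_riemannRochSpace D
  have := finite_riemannRochSpace (D - pt P)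
  have hdeg : Divisor.degree (D - pt P) = Divisor.degree D - 1 := by
    rw [map_sub, degree_pt]
  have h1 : Subsingleton (H1 D) := subsingleton_H1_of_h1Bound_le D (by omega)
  have h2 : Subsingleton (H1 (D - pt P)) := subsingleton_H1_of_h1Bound_le (D - pt P) (by omega)
  have e1 := finrank_riemannRochSpace_sub_finrank_H1 D
  have e2 := finrank_riemannRochSpace_sub_finrank_H1 (D - pt P)
  rw [Module.finrank_zero_of_subsingleton (M := H1 D)] at e1
  rw [Module.finrank_zero_of_subsingleton (M := H1 (D - pt P))] at e2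
  have hlt : finrank K (riemannRochSpace (D - pt P)) < finrank K (riemannRochSpace D) := by
    have : (finrank K (riemannRochSpace (D - pt P)) : ℤ) < finrank K (riemannRochSpace D) := by
      rw [hdeg] at e2
      push_cast at e1 e2
      omega
    exact_mod_cast this
  have hnle : ¬ (riemannRochSpace D ≤ riemannRochSpace (D - pt P)) := by
    intro hle
    have := Submodule.finrank_mono hle
    omega
  rw [SetLike.not_le_iff_exists] at hnle
  obtain ⟨f, hfD, hf⟩ := hnle
  rw [avoid_mem_L_sub_pt_iff] at hf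
  have hf0 : f ≠ 0 := fun h0 => hf ⟨hfD, Or.inl h0⟩
  refine ⟨f, hfD, hf0, ?_⟩
  have h3 : ¬ (- D P < P.ord f) := fun h => hf ⟨hfD, Or.inr h⟩
  rcases (mem_riemannRochSpace_iff.mp hfD) P with h0 | h4
  · exact absurd h0 hf0
  · omega

theorem exists_mem_L_forall_ord_eq (D : Divisor K F) (S : Finset (Place K F))
    (h : (h1Bound K F : ℤ) + 1 ≤ Divisor.degree D) :
    ∃ f ∈ riemannRochSpace D, f ≠ 0 ∧ ∀ P ∈ S, P.ord f = - D P := by
  have := infinite_place (K := K) (F := F)
  obtain ⟨P₀⟩ : Nonempty (Place K F) := inferInstance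
  obtain ⟨f₀, hf₀, hf₀0, -⟩ := avoid_exists_mem_L_ord_eq D P₀ h
  refine exists_mem_forall_ord_eq_of_le (riemannRochSpace D) D le_rfl ?_ S
    (fun P _ => avoid_exists_mem_L_ord_eq D P h)
  intro hbot
  rw [hbot, Submodule.mem_bot] at hf₀
  exact hf₀0 hf₀

/-- a base point free pencil inside `W` -/
theorem exists_pencil (W : Submodule K F) (D : Divisor K F)
    (hW : W ≤ riemannRochSpace D) (hS : ∀ P : Place K F, ∃ f ∈ W, f ≠ 0 ∧ P.ord f = - D P) :
    ∃ s₁ ∈ W, ∃ s₂ ∈ W, s₁ ≠ 0 ∧ s₂ ≠ 0 ∧
      ∀ P : Place K F, P.ord s₁ = - D P ∨ P.ord s₂ = - D P := by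
  classical
  have := infinite_place (K := K) (F := F)
  obtain ⟨P₀⟩ : Nonempty (Place K F) := inferInstance
  obtain ⟨s₁, hs₁, hs₁0, -⟩ := hS P₀
  have hW0 : W ≠ ⊥ := by
    intro hbot
    rw [hbot, Submodule.mem_bot] at hs₁
    exact hs₁0 hs₁
  set S : Finset (Place K F) := D.support ∪ (finite_ord_ne_zero (K := K) s₁).toFinset with hSdef
  obtain ⟨s₂, hs₂, hs₂0, h2⟩ := exists_mem_forall_ord_eq_of_le W D hW hW0 S (fun P _ => hS P)
  refine ⟨s₁, hs₁, s₂, hs₂, hs₁0, hs₂0, fun P => ?_⟩
  by_cases hP : P ∈ S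
  · exact Or.inr (h2 P hP)
  · left
    rw [hSdef, Finset.mem_union, not_or, Finsupp.mem_support_iff, not_not,
      Set.Finite.mem_toFinset, Set.mem_ofPred_eq, not_not] at hP
    rw [hP.1, hP.2, neg_zero]

end Fermat.Agent.S17.F
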