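import Fermat.Agent.S17.Defs

/-!
# S17, block F (function fields), node F0: basic facts on the spaces `L(D)`.
Owner: helper256.
-/

set_option autoImplicit false

noncomputable section

namespace Fermat.Agent.S17.F

open AlgebraicCurve Fermat.Agent.S24.FF Fermat.Agent.S27 Module

variable {K F : Type*} [Field K] [Field F] [Algebra K F] [IsAlgClosed K] [CharZero K] [IsFF1 K F]
  [NonConst K F]

theorem finrank_L_eq (D : Divisor K F) (h : (h1Bound K F : ℤ) ≤ Divisor.degree D) :
    (finrank K (riemannRochSpace D) : ℤ) = Divisor.degree D + 1 - genusFF K F := by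
  have h1 := finrank_riemannRochSpace_sub_finrank_H1 D
  have := subsingleton_H1_of_h1Bound_le D h
  have h2 : finrank K (H1 D) = 0 := finrank_zero_of_subsingleton
  rw [h2] at h1
  simpa using h1

omit [CharZero K] [NonConst K F] in
theorem deg_pt_eq_one (P : Place K F) : Divisor.degree (pt P) = 1 :=
  Riemann.degree_single_eq P 1

theorem finrank_L_le (D : Divisor K F) (h : 0 ≤ Divisor.degree D) :
    (finrank K (riemannRochSpace D) : ℤ) ≤ Divisor.degree D + 1 := by
  obtain ⟨P⟩ := Riemann.nonempty_place (K := K) (F := F) NonConst.out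
  set d : ℤ := Divisor.degree D with hd
  set E : Divisor K F := Finsupp.single P (d + 1) with hE
  have hE0 : 0 ≤ E := by
    intro w
    classical
    rw [hE, Finsupp.single_apply]
    split_ifs
    · simp only [Finsupp.coe_zero, Pi.zero_apply]; omega
    · exact le_rfl
  have hdegE : Divisor.degree E = d + 1 := Riemann.degree_single_eq P (d + 1)
  have hneg : Divisor.degree (D - E) < 0 := by
    rw [map_sub, hdegE]; omega
  have h1 := Riemann.finrank_L_add_le NonConst.out (D - E) E hE0
  rw [sub_add_cancel, Riemann.L_eq_bot_of_degree_neg hneg, finrank_bot, hdegE] at h1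
  simpa using h1

theorem genusFF_le : genusFF K F ≤ h1Bound K F + 1 := by
  obtain ⟨P⟩ := Riemann.nonempty_place (K := K) (F := F) NonConst.out
  have hdeg : Divisor.degree ((h1Bound K F) • pt P) = (h1Bound K F : ℤ) := by
    rw [map_nsmul, deg_pt_eq_one]; simp
  have h1 := finrank_L_eq ((h1Bound K F) • pt P) (by rw [hdeg])
  rw [hdeg] at h1
  have h2 : (0 : ℤ) ≤ (finrank K (riemannRochSpace ((h1Bound K F) • pt P)) : ℤ) :=
    Int.natCast_nonneg _
  omega

omit [IsAlgClosed K] [CharZero K] [IsFF1 K F] [NonConst K F] in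
theorem mem_L_sub_pt_iff (D : Divisor K F) (P : Place K F) (f : F) :
    f ∈ riemannRochSpace (D - pt P) ↔ f ∈ riemannRochSpace D ∧ (f = 0 ∨ - D P < P.ord f) := by
  classical
  have hval : ∀ v : Place K F, (D - pt P) v = D v - (if P = v then 1 else 0) := by
    intro v
    rw [Finsupp.sub_apply, pt, Finsupp.single_apply]
  simp only [mem_riemannRochSpace_iff, hval]
  by_cases hf : f = 0
  · simp [hf]
  simp only [hf, false_or]
  constructor
  · intro h
    refine ⟨fun v => ?_, ?_⟩
    · have := h v
      split_ifs at this <;> omega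
    · have := h P
      rw [if_pos rfl] at this
      omega
  · rintro ⟨h1, h2⟩ v
    have := h1 v
    split_ifs with hv
    · subst hv; omega
    · omega

/-- no base points in large degree -/
theorem exists_mem_L_ord_eq (D : Divisor K F) (P : Place K F)
    (h : (h1Bound K F : ℤ) + 1 ≤ Divisor.degree D) :
    ∃ f ∈ riemannRochSpace D, f ≠ 0 ∧ P.ord f = - D P := by
  have hdeg : Divisor.degree (D - pt P) = Divisor.degree D - 1 := by
    rw [map_sub, deg_pt_eq_one]
  have h1 := finrank_L_eq D (by omega)
  have h2 := finrank_L_eq (D - pt P) (by rw [hdeg]; omega)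
  rw [hdeg] at h2
  have hex : ∃ f ∈ riemannRochSpace D, f ∉ riemannRochSpace (D - pt P) := by
    by_contra hno
    push Not at hno
    have hle : riemannRochSpace D ≤ riemannRochSpace (D - pt P) := hno
    have := finite_riemannRochSpace (D - pt P)
    have h3 := Submodule.finrank_mono hle
    omega
  obtain ⟨f, hf, hf'⟩ := hex
  rw [mem_L_sub_pt_iff] at hf'
  push Not at hf'
  obtain ⟨hf0, hle⟩ := hf' hf
  refine ⟨f, hf, hf0, ?_⟩
  have := ((mem_riemannRochSpace_iff.mp hf) P).resolve_left hf0
  omega

omit [IsAlgClosed K] [CharZero K] [IsFF1 K F] [NonConst K F] in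
theorem L_mul_L_le (A B : Divisor K F) :
    riemannRochSpace A * riemannRochSpace B ≤ riemannRochSpace (A + B) := by
  rw [Submodule.mul_le]
  intro f hf g hg
  rw [mem_riemannRochSpace_iff] at hf hg ⊢
  intro v
  by_cases hf0 : f = 0
  · left; rw [hf0, zero_mul]
  by_cases hg0 : g = 0
  · left; rw [hg0, mul_zero]
  right
  have h1 := (hf v).resolve_left hf0
  have h2 := (hg v).resolve_left hg0
  rw [v.ord_mul hf0 hg0, Finsupp.add_apply]
  omega

omit [NonConst K F] in
/-- multiplication by a function -/
theorem map_mulLeft_L (D : Divisor K F) (s : F) (hs : s ≠ 0) :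
    (riemannRochSpace D).map (LinearMap.mulLeft K s) = riemannRochSpace (D - Riemann.divOf s) := by
  ext g
  rw [Submodule.mem_map]
  constructor
  · rintro ⟨f, hf, rfl⟩
    rw [LinearMap.mulLeft_apply]
    rw [mem_riemannRochSpace_iff] at hf ⊢
    intro v
    by_cases hf0 : f = 0
    · left; rw [hf0, mul_zero]
    right
    have h1 := (hf v).resolve_left hf0
    rw [v.ord_mul hs hf0, Finsupp.sub_apply, Riemann.divOf_apply]
    omega
  · intro hg
    refine ⟨s⁻¹ * g, ?_, ?_⟩
    · rw [mem_riemannRochSpace_iff] at hg ⊢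
      intro v
      by_cases hg0 : g = 0
      · left; rw [hg0, mul_zero]
      right
      have h1 := (hg v).resolve_left hg0
      rw [Finsupp.sub_apply, Riemann.divOf_apply] at h1
      rw [v.ord_mul (inv_ne_zero hs) hg0, v.ord_inv]
      omega
    · rw [LinearMap.mulLeft_apply, mul_inv_cancel_left₀ hs]

end Fermat.Agent.S17.F
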