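import Fermat.Agent.S17.Defs
import Fermat.Agent.S27.WRR2

/-!
# S17, block F, node F5 (owner helper193): `L(D₁) ⊓ L(D₂)` and `L(D₁) ⊔ L(D₂)`
-/

set_option autoImplicit false
set_option linter.unusedSectionVars false

noncomputable section

namespace Fermat.Agent.S17.F

open AlgebraicCurve Fermat.Agent.S24.FF Fermat.Agent.S27 Module

variable {K F : Type*} [Field K] [Field F] [Algebra K F] [IsAlgClosed K] [CharZero K] [IsFF1 K F]
  [NonConst K F]

namespace SupInf

/-- private copy of `finrank_L_eq` (node F0) -/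
theorem finrank_L_eq' (D : Divisor K F) (h : (h1Bound K F : ℤ) ≤ Divisor.degree D) :
    (finrank K (riemannRochSpace D) : ℤ) = Divisor.degree D + 1 - genusFF K F := by
  have h1 := finrank_riemannRochSpace_sub_finrank_H1 D
  have : Subsingleton (H1 D) := subsingleton_H1_of_h1Bound_le D h
  have h2 : finrank K (H1 D) = 0 := finrank_zero_of_subsingleton
  rw [h2] at h1
  simpa using h1

theorem degree_mono {D D' : Divisor K F} (h : D ≤ D') :
    Divisor.degree D ≤ Divisor.degree D' := by
  have h1 : 0 ≤ Divisor.degree (D' - D) := Riemann.degree_nonneg (sub_nonneg.2 h)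
  rw [map_sub] at h1
  linarith

end SupInf

theorem L_inf_L (D₁ D₂ : Divisor K F) :
    riemannRochSpace D₁ ⊓ riemannRochSpace D₂ = riemannRochSpace (D₁ ⊓ D₂) := by
  ext f
  rw [Submodule.mem_inf, mem_riemannRochSpace_iff, mem_riemannRochSpace_iff,
    mem_riemannRochSpace_iff]
  constructor
  · rintro ⟨h1, h2⟩ v
    rcases h1 v with h | h
    · exact Or.inl h
    rcases h2 v with h' | h'
    · exact Or.inl h'
    right
    rw [Finsupp.inf_apply]
    rcases le_total (D₁ v) (D₂ v) with e | e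
    · rw [inf_eq_left.2 e]; exact h
    · rw [inf_eq_right.2 e]; exact h'
  · intro h
    refine ⟨fun v => (h v).imp id fun hh => ?_, fun v => (h v).imp id fun hh => ?_⟩
    · rw [Finsupp.inf_apply] at hh
      have : D₁ v ⊓ D₂ v ≤ D₁ v := inf_le_left
      omega
    · rw [Finsupp.inf_apply] at hh
      have : D₁ v ⊓ D₂ v ≤ D₂ v := inf_le_right
      omega

theorem degree_inf_add_degree_sup (D₁ D₂ : Divisor K F) :
    Divisor.degree (D₁ ⊓ D₂) + Divisor.degree (D₁ ⊔ D₂)
      = Divisor.degree D₁ + Divisor.degree D₂ := by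
  rw [← map_add, ← map_add]
  congr 1
  ext v
  rw [Finsupp.add_apply, Finsupp.add_apply, Finsupp.inf_apply, Finsupp.sup_apply]
  exact inf_add_sup _ _

theorem L_sup_L (D₁ D₂ : Divisor K F) (h : (h1Bound K F : ℤ) ≤ Divisor.degree (D₁ ⊓ D₂)) :
    riemannRochSpace D₁ ⊔ riemannRochSpace D₂ = riemannRochSpace (D₁ ⊔ D₂) := by
  have := finite_riemannRochSpace D₁
  have := finite_riemannRochSpace D₂
  have := finite_riemannRochSpace (D₁ ⊔ D₂)
  have hle : riemannRochSpace D₁ ⊔ riemannRochSpace D₂ ≤ riemannRochSpace (D₁ ⊔ D₂) :=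
    sup_le (Riemann.L_mono le_sup_left) (Riemann.L_mono le_sup_right)
  refine Submodule.eq_of_le_of_finrank_eq hle ?_
  have h1 : (h1Bound K F : ℤ) ≤ Divisor.degree D₁ := h.trans (SupInf.degree_mono inf_le_left)
  have h2 : (h1Bound K F : ℤ) ≤ Divisor.degree D₂ := h.trans (SupInf.degree_mono inf_le_right)
  have h3 : (h1Bound K F : ℤ) ≤ Divisor.degree (D₁ ⊔ D₂) :=
    h1.trans (SupInf.degree_mono le_sup_left)
  have e := Submodule.finrank_sup_add_finrank_inf_eq (riemannRochSpace D₁) (riemannRochSpace D₂)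
  rw [L_inf_L] at e
  have e0 := SupInf.finrank_L_eq' _ h
  have e1 := SupInf.finrank_L_eq' _ h1
  have e2 := SupInf.finrank_L_eq' _ h2
  have e3 := SupInf.finrank_L_eq' _ h3
  have e4 := degree_inf_add_degree_sup D₁ D₂
  omega

end Fermat.Agent.S17.F
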