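import Fermat.Agent.S17.F.Pencil
import Fermat.Agent.S17.F.Avoid
import Fermat.Agent.S17.F.SupInf
import Fermat.Agent.S27.FibBasic

/-!
# S17, block F, node F4: `L(A) * L(B) = L(A + B)` in large degree (helper24)
-/

set_option autoImplicit false

noncomputable section

namespace Fermat.Agent.S17.F

open AlgebraicCurve Fermat.Agent.S24.FF Fermat.Agent.S27 Module

variable {K F : Type*} [Field K] [Field F] [Algebra K F] [IsAlgClosed K] [CharZero K] [IsFF1 K F]
  [NonConst K F]

namespace Castelnuovo

/-- one half: `L(A + B - E) ≤ L(A) * L(B)` when `E ≥ 0`, `deg (A - E) = c₀ + 1`. -/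
theorem L_sub_le (A B E : Divisor K F) (hE : 0 ≤ E)
    (hAE : Divisor.degree (A - E) = (h1Bound K F : ℤ) + 1)
    (hB : 2 * (h1Bound K F : ℤ) + 1 ≤ Divisor.degree B) :
    riemannRochSpace (A + B - E) ≤ riemannRochSpace A * riemannRochSpace B := by
  obtain ⟨s₁, h₁, s₂, h₂, hs₁, hs₂, hbpf⟩ := exists_pencil (riemannRochSpace (A - E)) (A - E) le_rfl
    (fun P => exists_mem_L_ord_eq (A - E) P (by rw [hAE]))
  have h := span_pair_mul_L (A - E) B s₁ s₂ h₁ h₂ hs₁ hs₂ hbpf (by rw [hAE]; omega)
  have h3 : A - E + B = A + B - E := by abel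
  rw [h3] at h
  rw [← h]
  have hle : riemannRochSpace (A - E) ≤ riemannRochSpace A :=
    Riemann.L_mono (sub_le_self A hE)
  have hspan : Submodule.span K {s₁, s₂} ≤ riemannRochSpace A := by
    rw [Submodule.span_le]
    rintro x (rfl | rfl)
    · exact hle h₁
    · exact hle h₂
  exact mul_le_mul' hspan le_rfl

theorem L_mul_L_of_le (A B : Divisor K F) (hA : 2 * (h1Bound K F : ℤ) + 1 ≤ Divisor.degree A)
    (hAB : Divisor.degree A ≤ Divisor.degree B) :
    riemannRochSpace A * riemannRochSpace B = riemannRochSpace (A + B) := by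
  classical
  apply le_antisymm (L_mul_L_le A B)
  have hinf : Infinite (Place K F) := infinite_place
  obtain ⟨P₁, P₂, hP⟩ := exists_pair_ne (Place K F)
  obtain ⟨e, he⟩ : ∃ e : ℕ, (e : ℤ) = Divisor.degree A - h1Bound K F - 1 :=
    ⟨(Divisor.degree A - h1Bound K F - 1).toNat, Int.toNat_of_nonneg (by omega)⟩
  have hE : ∀ P : Place K F, 0 ≤ e • pt P := by
    intro P v
    rw [Finsupp.smul_apply, pt, Finsupp.zero_apply]
    by_cases h : P = v
    · subst h; simp
    · simp [Finsupp.single_eq_of_ne' h]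
  have hdegE : ∀ P : Place K F, Divisor.degree (e • pt P) = e := by
    intro P
    rw [map_nsmul, degree_pt]; simp
  have h1 : ∀ P : Place K F,
      riemannRochSpace (A + B - e • pt P) ≤ riemannRochSpace A * riemannRochSpace B := by
    intro P
    exact L_sub_le A B (e • pt P) (hE P) (by rw [map_sub, hdegE]; omega) (by omega)
  have hsup : (A + B - e • pt P₁) ⊔ (A + B - e • pt P₂) = A + B := by
    ext v
    rw [Finsupp.sup_apply, Finsupp.sub_apply, Finsupp.sub_apply, Finsupp.smul_apply,
      Finsupp.smul_apply, pt, pt]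
    by_cases hv : P₁ = v
    · subst hv
      rw [Finsupp.single_eq_of_ne' hP.symm]
      simp
    · rw [Finsupp.single_eq_of_ne' hv]
      have h0 := hE P₂ v
      rw [Finsupp.smul_apply, pt, Finsupp.zero_apply] at h0
      simp only [smul_zero, sub_zero, sup_eq_left, tsub_le_iff_right, le_add_iff_nonneg_right]
      exact h0
  have hdeg := degree_inf_add_degree_sup (A + B - e • pt P₁) (A + B - e • pt P₂)
  rw [hsup, map_sub, map_sub, hdegE, hdegE, map_add] at hdeg
  have h2 := L_sup_L (A + B - e • pt P₁) (A + B - e • pt P₂) (by omega)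
  rw [hsup] at h2
  rw [← h2]
  exact sup_le (h1 P₁) (h1 P₂)

end Castelnuovo

theorem L_mul_L (A B : Divisor K F) (hA : 2 * (h1Bound K F : ℤ) + 1 ≤ Divisor.degree A)
    (hB : 2 * (h1Bound K F : ℤ) + 1 ≤ Divisor.degree B) :
    riemannRochSpace A * riemannRochSpace B = riemannRochSpace (A + B) := by
  rcases le_total (Divisor.degree A) (Divisor.degree B) with h | h
  · exact Castelnuovo.L_mul_L_of_le A B hA h
  · rw [mul_comm, add_comm]
    exact Castelnuovo.L_mul_L_of_le B A hB h

end Fermat.Agent.S17.F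

end
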