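import Fermat.Agent.S17.F.Basic

/-!
# S17, block F, node F3: the base point free pencil trick (helper24)
-/

set_option autoImplicit false

noncomputable section

namespace Fermat.Agent.S17.F

open AlgebraicCurve Fermat.Agent.S24.FF Fermat.Agent.S27 Module

variable {K F : Type*} [Field K] [Field F] [Algebra K F] [IsAlgClosed K] [CharZero K] [IsFF1 K F]
  [NonConst K F]

namespace Pencil

/-- the map `(f₁, f₂) ↦ s₁ f₁ + s₂ f₂` on `L(B) × L(B)` -/
def phi (B : Divisor K F) (s₁ s₂ : F) :
    (riemannRochSpace B × riemannRochSpace B) →ₗ[K] F :=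
  ((LinearMap.mulLeft K s₁).comp (riemannRochSpace B).subtype).coprod
    ((LinearMap.mulLeft K s₂).comp (riemannRochSpace B).subtype)

omit [IsAlgClosed K] [CharZero K] [IsFF1 K F] [NonConst K F] in
theorem phi_apply (B : Divisor K F) (s₁ s₂ : F) (x : riemannRochSpace B × riemannRochSpace B) :
    phi B s₁ s₂ x = s₁ * (x.1 : F) + s₂ * (x.2 : F) := rfl

omit [IsAlgClosed K] [CharZero K] [IsFF1 K F] [NonConst K F] in
theorem range_phi_le (B : Divisor K F) (s₁ s₂ : F) :
    LinearMap.range (phi B s₁ s₂) ≤ Submodule.span K {s₁, s₂} * riemannRochSpace B := by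
  rintro _ ⟨x, rfl⟩
  rw [phi_apply]
  refine Submodule.add_mem _ ?_ ?_
  · exact Submodule.mul_mem_mul (Submodule.subset_span (by simp)) x.1.2
  · exact Submodule.mul_mem_mul (Submodule.subset_span (by simp)) x.2.2

/-- the map `u ↦ (u s₂, - u s₁)` from `L(B - A)` to the kernel -/
def psi (A B : Divisor K F) (s₁ s₂ : F) (h₁ : s₁ ∈ riemannRochSpace A)
    (h₂ : s₂ ∈ riemannRochSpace A) :
    riemannRochSpace (B - A) →ₗ[K] (riemannRochSpace B × riemannRochSpace B) where
  toFun u := (⟨(u : F) * s₂, by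
      have := L_mul_L_le (B - A) A (Submodule.mul_mem_mul u.2 h₂)
      rwa [sub_add_cancel] at this⟩,
    ⟨-((u : F) * s₁), by
      have := L_mul_L_le (B - A) A (Submodule.mul_mem_mul u.2 h₁)
      rw [sub_add_cancel] at this
      exact Submodule.neg_mem _ this⟩)
  map_add' u v := by
    ext
    · simp [add_mul]
    · simp [add_mul]; ring
  map_smul' c u := by
    ext <;> simp

theorem psi_injective (A B : Divisor K F) (s₁ s₂ : F) (h₁ : s₁ ∈ riemannRochSpace A)
    (h₂ : s₂ ∈ riemannRochSpace A) (hs₂ : s₂ ≠ 0) : Function.Injective (psi A B s₁ s₂ h₁ h₂) := by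
  intro u v h
  have h1 := congrArg (fun x => ((x.1 : riemannRochSpace B) : F)) h
  have h2 : (u : F) * s₂ = (v : F) * s₂ := h1
  exact Subtype.ext (mul_right_cancel₀ hs₂ h2)

theorem range_psi (A B : Divisor K F) (s₁ s₂ : F) (h₁ : s₁ ∈ riemannRochSpace A)
    (h₂ : s₂ ∈ riemannRochSpace A) (hs₁ : s₁ ≠ 0) (hs₂ : s₂ ≠ 0)
    (hbpf : ∀ P : Place K F, P.ord s₁ = - A P ∨ P.ord s₂ = - A P) :
    LinearMap.range (psi A B s₁ s₂ h₁ h₂) = LinearMap.ker (phi B s₁ s₂) := by
  apply le_antisymm
  · rintro _ ⟨u, rfl⟩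
    rw [LinearMap.mem_ker, phi_apply]
    show s₁ * ((u : F) * s₂) + s₂ * (-((u : F) * s₁)) = 0
    ring
  · rintro ⟨f₁, f₂⟩ hx
    rw [LinearMap.mem_ker, phi_apply] at hx
    have hx' : s₁ * (f₁ : F) + s₂ * (f₂ : F) = 0 := hx
    have hu1 : (f₁ : F) = (f₁ : F) / s₂ * s₂ := by field_simp
    have hu2 : (f₂ : F) = -((f₁ : F) / s₂ * s₁) := by
      field_simp
      linear_combination hx'
    have hmem : (f₁ : F) / s₂ ∈ riemannRochSpace (B - A) := by
      rw [mem_riemannRochSpace_iff]
      intro P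
      by_cases hf1 : (f₁ : F) = 0
      · left; rw [hf1, zero_div]
      right
      have hf2 : (f₂ : F) ≠ 0 := by
        intro h0
        rw [h0, mul_zero, add_zero] at hx'
        exact hf1 ((mul_eq_zero.mp hx').resolve_left hs₁)
      have hB1 := ((mem_riemannRochSpace_iff.mp f₁.2) P).resolve_left hf1
      have hB2 := ((mem_riemannRochSpace_iff.mp f₂.2) P).resolve_left hf2
      have hord1 : P.ord ((f₁ : F) / s₂) = P.ord (f₁ : F) - P.ord s₂ := by
        rw [div_eq_mul_inv, P.ord_mul hf1 (inv_ne_zero hs₂), P.ord_inv]; ring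
      have hord2 : P.ord ((f₁ : F) / s₂) = P.ord (f₂ : F) - P.ord s₁ := by
        have h3 : (f₁ : F) / s₂ = -((f₂ : F) / s₁) := by
          field_simp
          linear_combination hx'
        rw [h3, ord_neg, div_eq_mul_inv, P.ord_mul hf2 (inv_ne_zero hs₁), P.ord_inv]; ring
      rw [Finsupp.sub_apply]
      rcases hbpf P with h | h
      · rw [hord2, h]; omega
      · rw [hord1, h]; omega
    refine ⟨⟨_, hmem⟩, ?_⟩
    ext
    · exact hu1.symm
    · exact hu2.symm

end Pencil

open Pencil in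
theorem span_pair_mul_L (A B : Divisor K F) (s₁ s₂ : F) (h₁ : s₁ ∈ riemannRochSpace A)
    (h₂ : s₂ ∈ riemannRochSpace A) (hs₁ : s₁ ≠ 0) (hs₂ : s₂ ≠ 0)
    (hbpf : ∀ P : Place K F, P.ord s₁ = - A P ∨ P.ord s₂ = - A P)
    (hdeg : (h1Bound K F : ℤ) + Divisor.degree A ≤ Divisor.degree B) :
    Submodule.span K {s₁, s₂} * riemannRochSpace B = riemannRochSpace (A + B) := by
  have hfinB := finite_riemannRochSpace (K := K) B
  have hfinBA := finite_riemannRochSpace (K := K) (B - A)
  have hfinAB := finite_riemannRochSpace (K := K) (A + B)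
  -- `deg A ≥ 0`
  have hA0 : 0 ≤ Divisor.degree A := by
    by_contra hneg
    have := Riemann.L_eq_bot_of_degree_neg (K := K) (D := A) (by omega)
    rw [this, Submodule.mem_bot] at h₁
    exact hs₁ h₁
  have hle : Submodule.span K {s₁, s₂} * riemannRochSpace B ≤ riemannRochSpace (A + B) := by
    have hspan : Submodule.span K {s₁, s₂} ≤ riemannRochSpace A := by
      rw [Submodule.span_le]
      rintro x (rfl | rfl)
      · exact h₁
      · exact h₂
    exact le_trans (mul_le_mul' hspan le_rfl) (L_mul_L_le A B)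
  have hrange := range_phi_le B s₁ s₂
  -- dimension count
  have hd1 := finrank_L_eq B (by omega)
  have hd2 := finrank_L_eq (B - A) (by rw [map_sub]; omega)
  have hd3 := finrank_L_eq (A + B) (by rw [map_add]; omega)
  rw [map_sub] at hd2
  rw [map_add] at hd3
  have hker : finrank K (LinearMap.ker (phi B s₁ s₂)) = finrank K (riemannRochSpace (B - A)) := by
    rw [← range_psi A B s₁ s₂ h₁ h₂ hs₁ hs₂ hbpf]
    exact LinearMap.finrank_range_of_inj (psi_injective A B s₁ s₂ h₁ h₂ hs₂)
  have hrn := LinearMap.finrank_range_add_finrank_ker (phi B s₁ s₂)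
  rw [hker, Module.finrank_prod] at hrn
  have hfin : finrank K (LinearMap.range (phi B s₁ s₂)) = finrank K (riemannRochSpace (A + B)) := by
    zify at hrn ⊢
    omega
  have heq : LinearMap.range (phi B s₁ s₂) = riemannRochSpace (A + B) :=
    Submodule.eq_of_le_of_finrank_eq (le_trans hrange hle) hfin
  exact le_antisymm hle (heq ▸ hrange)

end Fermat.Agent.S17.F

end
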