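import Fermat.Agent.S17.Defs
import Fermat.Agent.S27.WRR2
import Fermat.Agent.S17.F.Basic
import Fermat.Agent.S17.F.Avoid
import Fermat.Agent.S17.F.Pencil

/-!
# S17, block F6 (HILB): subspaces of `L(m P₀)` whose products have the right codimension
Owner: helper205.
-/

set_option autoImplicit false

noncomputable section

namespace Fermat.Agent.S17.F

open AlgebraicCurve Fermat.Agent.S24.FF Fermat.Agent.S27 Module

variable {K F : Type*} [Field K] [Field F] [Algebra K F] [IsAlgClosed K] [CharZero K] [IsFF1 K F]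
  [NonConst K F]

omit [NonConst K F] in
/-- The base divisor of a nonzero subspace `W ≤ L(A₀)`: an effective divisor `D` with
`W ≤ L(A₀ - D)` and without base points relative to `A₀ - D`. -/
theorem exists_base_divisor (A₀ : Divisor K F) (W : Submodule K F) (hW : W ≤ riemannRochSpace A₀)
    (hW0 : W ≠ ⊥) :
    ∃ D : Divisor K F, 0 ≤ D ∧ W ≤ riemannRochSpace (A₀ - D) ∧
      ∀ P : Place K F, ∃ f ∈ W, f ≠ 0 ∧ P.ord f = - (A₀ - D) P := by
  obtain ⟨f₀, hf₀W, hf₀⟩ := Submodule.exists_mem_ne_zero_of_ne_bot hW0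
  have hord : ∀ (P : Place K F) (f : F), f ∈ W → f ≠ 0 → 0 ≤ P.ord f + A₀ P := by
    intro P f hf hf0
    have := ((mem_riemannRochSpace_iff.mp (hW hf)) P).resolve_left hf0
    omega
  have hex : ∀ P : Place K F, ∃ b : ℤ, (∃ f ∈ W, f ≠ 0 ∧ P.ord f + A₀ P = b) ∧
      ∀ z : ℤ, (∃ f ∈ W, f ≠ 0 ∧ P.ord f + A₀ P = z) → b ≤ z := by
    intro P
    refine Int.exists_least_of_bdd (P := fun z => ∃ f ∈ W, f ≠ 0 ∧ P.ord f + A₀ P = z)
      ⟨0, ?_⟩ ⟨_, f₀, hf₀W, hf₀, rfl⟩
    rintro z ⟨f, hf, hf0, rfl⟩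
    exact hord P f hf hf0
  choose b hb hbmin using hex
  have hb0 : ∀ P, 0 ≤ b P := by
    intro P
    obtain ⟨f, hf, hf0, h⟩ := hb P
    rw [← h]
    exact hord P f hf hf0
  let D : Divisor K F := Finsupp.onFinset (Riemann.divOf f₀ + A₀).support b (by
    intro P hP
    rw [Finsupp.mem_support_iff, Finsupp.add_apply, Riemann.divOf_apply]
    have h1 := hbmin P _ ⟨f₀, hf₀W, hf₀, rfl⟩
    have h2 := hb0 P
    omega)
  have hD : ∀ P, D P = b P := fun _ => rfl
  refine ⟨D, fun P => hb0 P, ?_, ?_⟩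
  · intro f hf
    rw [mem_riemannRochSpace_iff]
    intro P
    by_cases hf0 : f = 0
    · exact Or.inl hf0
    · right
      have h1 := hbmin P _ ⟨f, hf, hf0, rfl⟩
      rw [Finsupp.sub_apply, hD]
      omega
  · intro P
    obtain ⟨f, hf, hf0, h⟩ := hb P
    refine ⟨f, hf, hf0, ?_⟩
    rw [Finsupp.sub_apply, hD]
    omega

omit [CharZero K] [NonConst K F] in
theorem degree_nsmul_pt (P₀ : Place K F) (m : ℕ) : Divisor.degree (m • pt P₀) = m := by
  rw [map_nsmul, pt, Riemann.degree_single_eq]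
  simp

/-- **HILB**: a subspace of `L(m P₀)` of codimension at most `n` whose product with `L(k P₀)` still has
codimension at least `n` is `L(m P₀ - E)` for an effective divisor `E` of degree `n`. -/
theorem exists_eq_Lsp (P₀ : Place K F) (m k n : ℕ) (W : Submodule K F) (hW : W ≤ Lm P₀ m)
    (hcodim : finrank K (Lm P₀ m) ≤ finrank K W + n)
    (hmul : finrank K (Lm P₀ k * W : Submodule K F) + n ≤ finrank K (Lm P₀ (m + k)))
    (hm : n + genusFF K F + h1Bound K F ≤ m) (hk : m + h1Bound K F ≤ k) :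
    ∃ E : Divisor K F, 0 ≤ E ∧ Divisor.degree E = n ∧ W = Lsp P₀ m E := by
  -- dimensions of `L(m P₀)`, `L((m+k) P₀)`
  have hLm : (finrank K (Lm P₀ m) : ℤ) = m + 1 - genusFF K F := by
    have := finrank_L_eq (m • pt P₀) (by rw [degree_nsmul_pt]; exact_mod_cast (by omega))
    rw [degree_nsmul_pt] at this
    exact this
  have hLmk : (finrank K (Lm P₀ (m + k)) : ℤ) = (m + k : ℕ) + 1 - genusFF K F := by
    have := finrank_L_eq ((m + k) • pt P₀)
      (by rw [degree_nsmul_pt]; exact_mod_cast (by omega))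
    rw [degree_nsmul_pt] at this
    exact this
  have hW0 : W ≠ ⊥ := by
    rintro rfl
    rw [finrank_bot] at hcodim
    omega
  obtain ⟨D, hD0, hWD, hbpf⟩ := exists_base_divisor (m • pt P₀) W hW hW0
  have hd0 := Riemann.degree_nonneg hD0
  have hdegA : Divisor.degree (m • pt P₀ - D) = m - Divisor.degree D := by
    rw [map_sub, degree_nsmul_pt]
  have := finite_riemannRochSpace (m • pt P₀ - D)
  have h3 : finrank K W ≤ finrank K (riemannRochSpace (m • pt P₀ - D)) :=
    Submodule.finrank_mono hWD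
  have h4 : 0 ≤ Divisor.degree (m • pt P₀ - D) := by
    by_contra hneg
    have hbot := Riemann.L_eq_bot_of_degree_neg (not_le.mp hneg)
    rw [hbot] at hWD
    exact hW0 (le_bot_iff.mp hWD)
  have h5 := finrank_L_le (m • pt P₀ - D) h4
  have h6 := finrank_L_eq (m • pt P₀ - D) (by rw [hdegA] at h5 ⊢; omega)
  -- the pencil
  obtain ⟨s₁, hs₁, s₂, hs₂, hs₁0, hs₂0, hpen⟩ := exists_pencil W (m • pt P₀ - D) hWD hbpf
  have h7 := span_pair_mul_L (m • pt P₀ - D) (k • pt P₀) s₁ s₂ (hWD hs₁) (hWD hs₂) hs₁0 hs₂0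
    hpen (by rw [hdegA, degree_nsmul_pt]; omega)
  have h7' : riemannRochSpace (m • pt P₀ - D + k • pt P₀) ≤ Lm P₀ k * W := by
    rw [← h7, mul_comm]
    refine mul_le_mul' le_rfl ?_
    rw [Submodule.span_le]
    rintro x (rfl | rfl)
    · exact hs₁
    · exact hs₂
  have h8 := finrank_L_eq (m • pt P₀ - D + k • pt P₀)
    (by rw [map_add, hdegA, degree_nsmul_pt]; omega)
  rw [map_add, hdegA, degree_nsmul_pt] at h8
  have hle : Lm P₀ k * W ≤ riemannRochSpace (k • pt P₀ + m • pt P₀) :=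
    (mul_le_mul' le_rfl hW).trans (L_mul_L_le _ _)
  have := finite_riemannRochSpace (k • pt P₀ + m • pt P₀)
  have : Module.Finite K (Lm P₀ k * W : Submodule K F) :=
    Submodule.finiteDimensional_of_le hle
  have h9 : finrank K (riemannRochSpace (m • pt P₀ - D + k • pt P₀)) ≤
      finrank K (Lm P₀ k * W : Submodule K F) := Submodule.finrank_mono h7'
  rw [hdegA] at h5 h6
  have hdn : Divisor.degree D = n := by
    push_cast at hLmk
    omega
  refine ⟨D, hD0, hdn, ?_⟩
  show W = riemannRochSpace (m • pt P₀ - D)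
  refine Submodule.eq_of_le_of_finrank_eq hWD ?_
  omega

end Fermat.Agent.S17.F
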