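import Fermat.Agent.S17.Defs
import Fermat.Agent.S27.WRR2

/-!
# S17, block F, node F10: leading coefficients
-/

set_option autoImplicit false
set_option linter.unusedSectionVars false

noncomputable section

namespace Fermat.Agent.S17.F

open AlgebraicCurve Fermat.Agent.S24.FF Fermat.Agent.S27 Module

variable {K F : Type*} [Field K] [Field F] [Algebra K F] [IsAlgClosed K] [CharZero K] [IsFF1 K F]
  [NonConst K F]

/-! ## F10  (file F/Lead.lean): leading coefficients -/

theorem exists_ord_eq_one (P : Place K F) : ∃ t : F, P.ord t = 1 :=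
  Fermat.Agent.S24.FF.exists_ord_eq_one P

omit [IsAlgClosed K] [CharZero K] [IsFF1 K F] [NonConst K F] in
theorem ne_zero_of_ord_eq_one {P : Place K F} {t : F} (ht : P.ord t = 1) : t ≠ 0 :=
  ne_zero_of_ord_ne_zero P (by rw [ht]; exact one_ne_zero)

omit [IsAlgClosed K] [CharZero K] [IsFF1 K F] [NonConst K F] in
theorem ord_zpow_mul {P : Place K F} {t : F} (ht : P.ord t = 1) (n : ℤ) {f : F} (hf : f ≠ 0) :
    P.ord (t ^ n * f) = n + P.ord f := by
  rw [P.ord_mul (zpow_ne_zero _ (ne_zero_of_ord_eq_one ht)) hf, P.ord_zpow, ht, mul_one]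

omit [IsAlgClosed K] [CharZero K] [IsFF1 K F] [NonConst K F] in
theorem ord_zpow_mul_nonneg {P : Place K F} {t : F} (ht : P.ord t = 1) {D : Divisor K F} {f : F}
    (hf : f ∈ riemannRochSpace D) : 0 ≤ P.ord (t ^ (D P) * f) := by
  rcases eq_or_ne f 0 with rfl | hf0
  · simp
  · rw [ord_zpow_mul ht _ hf0]
    have := ((mem_riemannRochSpace_iff.mp hf) P).resolve_left hf0
    omega

theorem lead_add (P : Place K F) (t : F) (ht : P.ord t = 1) (D : Divisor K F) (f g : F)
    (hf : f ∈ riemannRochSpace D) (hg : g ∈ riemannRochSpace D) :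
    lead P t (D P) (f + g) = lead P t (D P) f + lead P t (D P) g := by
  unfold lead
  rw [mul_add]
  exact ev_add (ord_zpow_mul_nonneg ht hf) (ord_zpow_mul_nonneg ht hg)

theorem lead_smul (P : Place K F) (t : F) (ht : P.ord t = 1) (D : Divisor K F) (c : K) (f : F)
    (hf : f ∈ riemannRochSpace D) :
    lead P t (D P) (c • f) = c * lead P t (D P) f := by
  unfold lead
  rw [Algebra.smul_def, mul_left_comm,
    ev_mul (by rw [ord_algebraMap]) (ord_zpow_mul_nonneg ht hf), ev_algebraMap]

theorem lead_mul (P : Place K F) (t : F) (ht : P.ord t = 1) (D₁ D₂ : Divisor K F) (f g : F)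
    (hf : f ∈ riemannRochSpace D₁) (hg : g ∈ riemannRochSpace D₂) :
    lead P t ((D₁ + D₂) P) (f * g) = lead P t (D₁ P) f * lead P t (D₂ P) g := by
  unfold lead
  rw [Finsupp.add_apply, zpow_add₀ (ne_zero_of_ord_eq_one ht), mul_mul_mul_comm]
  exact ev_mul (ord_zpow_mul_nonneg ht hf) (ord_zpow_mul_nonneg ht hg)

theorem lead_eq_zero_iff (P : Place K F) (t : F) (ht : P.ord t = 1) (D : Divisor K F) (f : F)
    (hf : f ∈ riemannRochSpace D) :
    lead P t (D P) f = 0 ↔ f ∈ riemannRochSpace (D - pt P) := by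
  unfold lead
  rw [ev_eq_zero_iff (ord_zpow_mul_nonneg ht hf)]
  rcases eq_or_ne f 0 with rfl | hf0
  · simp
  have ht0 : t ^ (D P) ≠ 0 := zpow_ne_zero _ (ne_zero_of_ord_eq_one ht)
  rw [ord_zpow_mul ht _ hf0, mem_riemannRochSpace_iff]
  constructor
  · rintro (h | h)
    · exact absurd h (mul_ne_zero ht0 hf0)
    · intro v
      right
      rw [Finsupp.sub_apply]
      by_cases hv : P = v
      · subst hv
        rw [pt_apply_self]
        omega
      · rw [pt_apply_of_ne hv, sub_zero]
        exact ((mem_riemannRochSpace_iff.mp hf) v).resolve_left hf0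
  · intro h
    right
    have := (h P).resolve_left hf0
    rw [Finsupp.sub_apply, pt_apply_self] at this
    omega

end Fermat.Agent.S17.F
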