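import Fermat.Agent.S17.Defs
import Fermat.Agent.S27.WRR2
import Fermat.Agent.S17.F.Basic
import Fermat.Agent.S17.F.Castelnuovo

/-!
# S17, block F, node F6a (task 1163, helper198): the spaces `Lm P₀ m = L(m P₀)` and
`Lsp P₀ m E = L(m P₀ - E)`.
-/

set_option autoImplicit false
set_option linter.unusedSectionVars false

noncomputable section

namespace Fermat.Agent.S17.F

open AlgebraicCurve Fermat.Agent.S24.FF Fermat.Agent.S27 Module

variable {K F : Type*} [Field K] [Field F] [Algebra K F] [IsAlgClosed K] [CharZero K] [IsFF1 K F]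
  [NonConst K F]

omit [IsAlgClosed K] [CharZero K] [IsFF1 K F] [NonConst K F] in
theorem LspAux.pt_nonneg (P : Place K F) : 0 ≤ pt P := Finsupp.single_nonneg.mpr zero_le_one

omit [NonConst K F] in
theorem LspAux.degree_nsmul_pt (P₀ : Place K F) (m : ℕ) : Divisor.degree (m • pt P₀) = m := by
  rw [map_nsmul, degree_pt, nsmul_eq_mul, mul_one]

omit [NonConst K F] in
theorem LspAux.degree_nsmul_pt_sub (P₀ : Place K F) (m : ℕ) (E : Divisor K F) :
    Divisor.degree (m • pt P₀ - E) = m - Divisor.degree E := by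
  rw [map_sub, LspAux.degree_nsmul_pt]

theorem Lsp_zero (P₀ : Place K F) (m : ℕ) : Lsp P₀ m 0 = Lm P₀ m := by
  rw [Lsp, Lm, sub_zero]

theorem Lsp_le_Lm (P₀ : Place K F) (m : ℕ) (E : Divisor K F) (hE : 0 ≤ E) :
    Lsp P₀ m E ≤ Lm P₀ m :=
  Riemann.L_mono (sub_le_self _ hE)

theorem Lm_mono (P₀ : Place K F) {m m' : ℕ} (h : m ≤ m') : Lm P₀ m ≤ Lm P₀ m' :=
  Riemann.L_mono (nsmul_le_nsmul_left (LspAux.pt_nonneg P₀) h)

theorem finrank_Lm (P₀ : Place K F) (m : ℕ) (hm : h1Bound K F ≤ m) :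
    finrank K (Lm P₀ m) + genusFF K F = m + 1 := by
  have h := finrank_L_eq (m • pt P₀) (by rw [LspAux.degree_nsmul_pt]; exact_mod_cast hm)
  rw [LspAux.degree_nsmul_pt] at h
  rw [Lm]
  omega

theorem finrank_Lsp (P₀ : Place K F) (m n : ℕ) (E : Divisor K F)
    (hdeg : Divisor.degree E = n) (hm : n + h1Bound K F ≤ m) :
    finrank K (Lsp P₀ m E) + n + genusFF K F = m + 1 := by
  have h := finrank_L_eq (m • pt P₀ - E) (by rw [LspAux.degree_nsmul_pt_sub, hdeg]; omega)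
  rw [LspAux.degree_nsmul_pt_sub, hdeg] at h
  rw [Lsp]
  omega

theorem Lsp_mul_Lsp (P₀ : Place K F) (m m' n n' : ℕ) (E E' : Divisor K F)
    (hdeg : Divisor.degree E = n) (hdeg' : Divisor.degree E' = n')
    (hm : n + 2 * h1Bound K F + 1 ≤ m) (hm' : n' + 2 * h1Bound K F + 1 ≤ m') :
    Lsp P₀ m E * Lsp P₀ m' E' = Lsp P₀ (m + m') (E + E') := by
  rw [Lsp, Lsp, Lsp, L_mul_L _ _ (by rw [LspAux.degree_nsmul_pt_sub, hdeg]; omega)
    (by rw [LspAux.degree_nsmul_pt_sub, hdeg']; omega)]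
  congr 1
  rw [add_nsmul]
  abel

theorem Lsp_add_pt_base (P₀ : Place K F) (m : ℕ) (E : Divisor K F) :
    Lsp P₀ (m + 1) (E + pt P₀) = Lsp P₀ m E := by
  rw [Lsp, Lsp]
  congr 1
  rw [succ_nsmul]
  abel

/-- one half of `Lsp_injective`. -/
theorem LspAux.le_of_Lsp_le (P₀ : Place K F) (m n : ℕ) (E E' : Divisor K F)
    (hdeg : Divisor.degree E = n) (hm : n + h1Bound K F + 1 ≤ m)
    (h : Lsp P₀ m E ≤ Lsp P₀ m E') : E' ≤ E := by
  intro P
  obtain ⟨f, hf, hf0, hord⟩ := exists_mem_L_ord_eq (m • pt P₀ - E) P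
    (by rw [LspAux.degree_nsmul_pt_sub, hdeg]; omega)
  have h1 : f ∈ riemannRochSpace (m • pt P₀ - E') := h hf
  rw [mem_riemannRochSpace_iff] at h1
  rcases h1 P with h2 | h2
  · exact absurd h2 hf0
  · rw [hord, Finsupp.sub_apply, Finsupp.sub_apply] at h2
    omega

theorem Lsp_injective (P₀ : Place K F) (m n : ℕ) (E E' : Divisor K F)
    (hdeg : Divisor.degree E = n) (hdeg' : Divisor.degree E' = n)
    (hm : n + h1Bound K F + 1 ≤ m) (h : Lsp P₀ m E = Lsp P₀ m E') : E = E' :=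
  le_antisymm (LspAux.le_of_Lsp_le P₀ m n E' E hdeg' hm h.ge) (LspAux.le_of_Lsp_le P₀ m n E E' hdeg hm h.le)

end Fermat.Agent.S17.F
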