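import Fermat.Agent.S17.Defs
import Fermat.Agent.S27.WRR2

/-!
# S17, block F8: special divisors

* `card_add_degree_lt`: if `H1 D ≠ 0`, the number of places `P` with `l(D + P) ≠ l(D)` is bounded.
* `exists_nonspecial_completion`: an effective divisor `E` with `l(E) = 1`, `deg E ≤ g` can be
  completed, with points of a given large finite set, to a divisor of degree `g` with `l = 1`.

Owner: helper72.
-/

set_option autoImplicit false

noncomputable section

namespace Fermat.Agent.S17.F

open AlgebraicCurve Fermat.Agent.S24.FF Fermat.Agent.S27 Module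

variable {K F : Type*} [Field K] [Field F] [Algebra K F] [IsAlgClosed K] [CharZero K] [IsFF1 K F]
  [NonConst K F]

namespace Special

/-- the sum of the points of a finite set -/
def sumPt (S : Finset (Place K F)) : Divisor K F := ∑ P ∈ S, pt P

omit [IsAlgClosed K] [CharZero K] [IsFF1 K F] [NonConst K F] in
theorem sumPt_apply_of_notMem (S : Finset (Place K F)) {P : Place K F} (hP : P ∉ S) :
    sumPt S P = 0 := by
  unfold sumPt
  rw [Finsupp.finset_sum_apply]
  refine Finset.sum_eq_zero fun Q hQ => ?_
  unfold pt
  refine Finsupp.single_eq_of_ne ?_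
  rintro rfl
  exact hP hQ

omit [NonConst K F] in
theorem degree_sumPt (S : Finset (Place K F)) : Divisor.degree (sumPt S) = S.card := by
  unfold sumPt
  rw [map_sum, Finset.sum_congr rfl fun P _ => degree_pt P]
  simp

/-- strict growth of `l` when a "good" point is added -/
theorem finrank_add_card_le (D : Divisor K F) (S : Finset (Place K F))
    (hS : ∀ P ∈ S, finrank K (riemannRochSpace (D + pt P)) ≠ finrank K (riemannRochSpace D)) :
    finrank K (riemannRochSpace D) + S.card ≤ finrank K (riemannRochSpace (D + sumPt S)) := by
  classical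
  induction S using Finset.induction_on with
  | empty =>
    have h0 : sumPt (∅ : Finset (Place K F)) = 0 := rfl
    rw [h0, add_zero, Finset.card_empty, add_zero]
  | insert P S hP ih =>
    have ih' := ih fun Q hQ => hS Q (Finset.mem_insert_of_mem hQ)
    have hne := hS P (Finset.mem_insert_self P S)
    -- a function in `L(D + P)` which is not in `L(D)`
    have hle : riemannRochSpace D ≤ riemannRochSpace (D + pt P) :=
      Riemann.L_mono (Riemann.le_add_single D P)
    haveI := finite_riemannRochSpace (D + pt P)
    have hnle : ¬ riemannRochSpace (D + pt P) ≤ riemannRochSpace D := by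
      intro h
      exact hne (congrArg (fun W : Submodule K F => finrank K W) (le_antisymm h hle))
    obtain ⟨f, hf, hf'⟩ := SetLike.not_le_iff_exists.mp hnle
    obtain ⟨hf0, hord⟩ := Riemann.ord_eq_of_mem_of_not_mem hf hf'
    have hsum : sumPt (insert P S) = sumPt S + pt P := by
      unfold sumPt
      rw [Finset.sum_insert hP, add_comm]
    have hle2 : riemannRochSpace (D + sumPt S) ≤ riemannRochSpace (D + sumPt (insert P S)) := by
      rw [hsum, ← add_assoc]
      exact Riemann.L_mono (Riemann.le_add_single _ P)
    have hfmem : f ∈ riemannRochSpace (D + sumPt (insert P S)) := by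
      refine Riemann.L_mono ?_ hf
      rw [hsum, add_comm (sumPt S), ← add_assoc]
      refine le_add_of_nonneg_right ?_
      unfold sumPt
      exact Finset.sum_nonneg fun Q _ => by
        unfold pt
        exact Finsupp.single_nonneg.2 zero_le_one
    have hfnot : f ∉ riemannRochSpace (D + sumPt S) := by
      intro h
      have h1 := ((mem_riemannRochSpace_iff.mp h) P).resolve_left hf0
      rw [Finsupp.add_apply, sumPt_apply_of_notMem S hP] at h1
      omega
    haveI := finite_riemannRochSpace (D + sumPt (insert P S))
    have hlt : finrank K (riemannRochSpace (D + sumPt S)) <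
        finrank K (riemannRochSpace (D + sumPt (insert P S))) :=
      Submodule.finrank_lt_finrank_of_lt (lt_of_le_of_ne hle2 fun h => hfnot (h ▸ hfmem))
    rw [Finset.card_insert_of_notMem hP]
    omega

theorem finrank_H1_pos {D : Divisor K F} (hD : ¬ Subsingleton (H1 D)) : 0 < finrank K (H1 D) := by
  haveI := finite_H1 D
  haveI : Nontrivial (H1 D) := not_subsingleton_iff_nontrivial.mp hD
  exact finrank_pos

theorem not_subsingleton_H1 {D : Divisor K F} (hD : 0 < finrank K (H1 D)) :
    ¬ Subsingleton (H1 D) := by
  intro h
  rw [finrank_zero_of_subsingleton] at hD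
  exact lt_irrefl _ hD

end Special

open Special

theorem card_add_degree_lt (D : Divisor K F) (hD : ¬ Subsingleton (H1 D))
    (S : Finset (Place K F))
    (hS : ∀ P ∈ S, finrank K (riemannRochSpace (D + pt P)) ≠ finrank K (riemannRochSpace D)) :
    (S.card : ℤ) + Divisor.degree D < h1Bound K F := by
  have h1 := finrank_add_card_le D S hS
  have h2 := finrank_riemannRochSpace_sub_finrank_H1 D
  have h3 := finrank_riemannRochSpace_sub_finrank_H1 (D + sumPt S)
  rw [map_add, degree_sumPt] at h3
  have h4 := finrank_H1_pos hD
  have h5 : 0 < finrank K (H1 (D + sumPt S)) := by omega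
  by_contra hcon
  rw [not_lt] at hcon
  refine not_subsingleton_H1 h5 (subsingleton_H1_of_h1Bound_le _ ?_)
  rw [map_add, degree_sumPt]
  omega

theorem exists_nonspecial_completion (T₀ : Finset (Place K F)) (hT₀ : h1Bound K F ≤ T₀.card)
    (E : Divisor K F) (hE : 0 ≤ E) (hl : finrank K (riemannRochSpace E) = 1)
    (hdeg : Divisor.degree E ≤ genusFF K F) :
    ∃ T : Divisor K F, 0 ≤ T ∧ T.support ⊆ T₀ ∧ Divisor.degree (E + T) = genusFF K F ∧
      finrank K (riemannRochSpace (E + T)) = 1 := by
  classical
  obtain ⟨n, hn⟩ : ∃ n : ℕ, (genusFF K F : ℤ) - Divisor.degree E = n :=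
    ⟨((genusFF K F : ℤ) - Divisor.degree E).toNat, (Int.toNat_of_nonneg (by omega)).symm⟩
  induction n generalizing E with
  | zero =>
    refine ⟨0, le_rfl, by simp, ?_, by rwa [add_zero]⟩
    rw [add_zero]
    omega
  | succ n ih =>
    have hRR := finrank_riemannRochSpace_sub_finrank_H1 E
    have hH1 : ¬ Subsingleton (H1 E) := not_subsingleton_H1 (by omega)
    have hdeg0 : 0 ≤ Divisor.degree E := Riemann.degree_nonneg hE
    obtain ⟨P, hPT, hP⟩ : ∃ P ∈ T₀,
        finrank K (riemannRochSpace (E + pt P)) = finrank K (riemannRochSpace E) := by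
      by_contra hcon
      simp only [not_exists, not_and] at hcon
      have := card_add_degree_lt E hH1 T₀ hcon
      omega
    have hpt : (0 : Divisor K F) ≤ pt P := by
      unfold pt
      exact Finsupp.single_nonneg.2 zero_le_one
    obtain ⟨T, hT0, hTs, hTd, hTl⟩ := ih (E + pt P) (add_nonneg hE hpt) (hP.trans hl)
      (by rw [map_add, degree_pt]; omega) (by rw [map_add, degree_pt]; push_cast at hn; omega)
    refine ⟨pt P + T, add_nonneg hpt hT0, ?_, by rwa [← add_assoc], by rwa [← add_assoc]⟩
    refine Finsupp.support_add.trans (Finset.union_subset ?_ hTs)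
    unfold pt
    exact Finsupp.support_single_subset.trans (Finset.singleton_subset_iff.2 hPT)

end Fermat.Agent.S17.F
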